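import Fermat.Agent.S36.R.RegStep.Local

/-!
# S36 / R / RegStep / Loc : from the elementwise statements on `M`, `M'` to the localisations      (OWNER: helper67)

`z` a maximal ideal of `M`, `A = M_z`, `B = M'_z` (localisation of `M'` at the image of `M ∖ z`).
-/

set_option autoImplicit false

namespace Fermat.Agent.S36.R.RegStep

open IsLocalRing

section Base

variable {M : Type*} [CommRing M] (z : Ideal M) [z.IsPrime]
  (A : Type*) [CommRing A] [Algebra M A] [IsLocalization.AtPrime A z]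

/-- divisibility in `A` of elements of `M`. -/
theorem locBase_exists_dvd {p x : M} (h : algebraMap M A p ∣ algebraMap M A x) :
    ∃ s, s ∉ z ∧ p ∣ s * x := by
  obtain ⟨y, hy⟩ := h
  obtain ⟨⟨f, s⟩, hfs⟩ := IsLocalization.surj z.primeCompl y
  have h1 : algebraMap M A (x * s) = algebraMap M A (p * f) := by
    rw [map_mul, map_mul, hy, ← hfs, mul_assoc]
  obtain ⟨c, hc⟩ := (IsLocalization.eq_iff_exists z.primeCompl A).1 h1
  refine ⟨c * s, (c * s).2, ⟨c * f, ?_⟩⟩
  linear_combination hc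

/-- `x ∈ 𝔪_A`: `x = f / s`, `f ∈ z` (`IsLocalization.AtPrime.to_map_mem_maximal_iff`, `mk'_surjective`), then `Reg2At.gen`. -/
theorem maximalIdeal_eq_of_reg2At [IsLocalRing A] {π T : M} (h : Reg2At z π T) :
    maximalIdeal A = Ideal.span {algebraMap M A π, algebraMap M A T} := by
  apply le_antisymm
  · intro x hx
    obtain ⟨⟨f, s⟩, hfs⟩ := IsLocalization.surj z.primeCompl x
    have hf : f ∈ z := by
      rw [← IsLocalization.AtPrime.to_map_mem_maximal_iff A z f, ← hfs]
      exact Ideal.mul_mem_right _ _ hx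
    obtain ⟨s', u, v, hs', e⟩ := h.gen f hf
    have hu : IsUnit (algebraMap M A s' * algebraMap M A s) :=
      (IsLocalization.map_units A (⟨s', hs'⟩ : z.primeCompl)).mul (IsLocalization.map_units A s)
    rw [← Ideal.unit_mul_mem_iff_mem _ hu]
    have e' : algebraMap M A s' * algebraMap M A s * x
        = algebraMap M A u * algebraMap M A π + algebraMap M A v * algebraMap M A T := by
      have e2 := congrArg (algebraMap M A) e
      simp only [map_mul, map_add] at e2
      rw [← e2, ← hfs]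
      ring
    rw [e']
    exact Ideal.add_mem _ (Ideal.mul_mem_left _ _ (Ideal.subset_span (by simp)))
      (Ideal.mul_mem_left _ _ (Ideal.subset_span (by simp)))
  · rw [Ideal.span_le]
    intro x hx
    rcases hx with rfl | rfl
    · exact (IsLocalization.AtPrime.to_map_mem_maximal_iff A z π).2 h.mem_a
    · exact (IsLocalization.AtPrime.to_map_mem_maximal_iff A z T).2 h.mem_b

/-- `π/1 ∣ T^k/1` ⟹ `π ∣ s T ^ k` for some `s ∉ z` (`IsLocalization.eq_iff_exists`). -/
theorem not_dvd_pow_of_reg2At {π T : M} (h : Reg2At z π T) (k : ℕ) :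
    ¬ algebraMap M A π ∣ algebraMap M A T ^ k := by
  intro hd
  rw [← map_pow] at hd
  obtain ⟨s, hs, hdvd⟩ := locBase_exists_dvd z A hd
  exact h.nonnil k s hs hdvd

/-- `π/1 ∣ δ/1` ⟹ `π ∣ s δ` for some `s ∉ z`. -/
theorem not_dvd_algebraMap {π δ : M} (hδ : ∀ s, s ∉ z → ¬ π ∣ s * δ) :
    ¬ algebraMap M A π ∣ algebraMap M A δ := by
  intro hd
  obtain ⟨s, hs, hdvd⟩ := locBase_exists_dvd z A hd
  exact hδ s hs hdvd

/-- universe polymorphic version of `IsAlgClosed.of_ringEquiv`. -/
theorem locBase_isAlgClosed_of_ringEquiv {k k' : Type*} [Field k] [Field k'] (e : k ≃+* k')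
    [IsAlgClosed k] : IsAlgClosed k' := by
  apply IsAlgClosed.of_exists_root
  intro p hmp hp
  have hpe : (p.map e.symm.toRingHom).degree ≠ 0 := by
    rw [Polynomial.degree_map]
    exact ne_of_gt (Polynomial.degree_pos_of_irreducible hp)
  rcases IsAlgClosed.exists_root (k := k) (p.map e.symm.toRingHom) hpe with ⟨x, hx⟩
  use e x
  rw [Polynomial.IsRoot] at hx
  apply e.symm.injective
  rw [map_zero, ← hx]
  clear hx hpe hp hmp
  induction p using Polynomial.induction_on <;> simp_all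

/-- `IsLocalization.AtPrime.equivQuotMaximalIdeal`. -/
theorem isAlgClosed_residueField_loc [hz : z.IsMaximal] [IsLocalRing A]
    (hk : @IsAlgClosed (M ⧸ z) (Ideal.Quotient.field z)) : IsAlgClosed (ResidueField A) := by
  let _ := Ideal.Quotient.field z
  exact locBase_isAlgClosed_of_ringEquiv (k := M ⧸ z) (k' := ResidueField A)
    (IsLocalization.AtPrime.equivQuotMaximalIdeal z A)

end Base

section Ext

variable {M M' : Type*} [CommRing M] [CommRing M'] [Algebra M M'] (z : Ideal M) [z.IsPrime]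
  (A : Type*) [CommRing A] [Algebra M A] [IsLocalization.AtPrime A z]
  (B : Type*) [CommRing B] [Algebra M' B]
  [IsLocalization (Algebra.algebraMapSubmonoid M' z.primeCompl) B]
  [Algebra A B] [Algebra M B] [IsScalarTower M A B] [IsScalarTower M M' B]

/-- (S2) in `B`.  Common denominator `f = f₀/σ`, `h = h₀/σ`; `c (π f₀) = c (T h₀)` in `M'`, `c` in the image of `M ∖ z`: apply
`hS2` to `c f₀`, `c h₀`. -/
theorem S2_loc {π T : M}
    (hS2 : ∀ f h : M', algebraMap M M' π * f = algebraMap M M' T * h →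
      ∃ s, s ∉ z ∧ algebraMap M M' T ∣ algebraMap M M' s * f) (f h : B)
    (hfh : algebraMap M A π • f = algebraMap M A T • h) : ∃ f' : B, f = algebraMap M A T • f' := by
  set S := Algebra.algebraMapSubmonoid M' z.primeCompl with hS
  have key : ∀ (m : M) (b : B), algebraMap M A m • b = algebraMap M' B (algebraMap M M' m) * b := by
    intro m b
    rw [Algebra.smul_def, ← IsScalarTower.algebraMap_apply M A B,
      IsScalarTower.algebraMap_apply M M' B]
  rw [key, key] at hfh
  obtain ⟨⟨f₀, σ₁⟩, hf⟩ := IsLocalization.surj S f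
  obtain ⟨⟨h₀, σ₂⟩, hh⟩ := IsLocalization.surj S h
  simp only at hf hh
  have h1 : algebraMap M' B (algebraMap M M' π * (f₀ * σ₂)) =
      algebraMap M' B (algebraMap M M' T * (h₀ * σ₁)) := by
    rw [map_mul, map_mul, map_mul, map_mul, ← hf, ← hh]
    linear_combination (algebraMap M' B σ₁ * algebraMap M' B σ₂) * hfh
  obtain ⟨c, hc⟩ := (IsLocalization.eq_iff_exists S B).mp h1
  obtain ⟨s, hs, g, hg⟩ := hS2 (c * (f₀ * σ₂)) (c * (h₀ * σ₁)) (by linear_combination hc)
  have hsS : algebraMap M M' s ∈ S := ⟨s, hs, rfl⟩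
  have hu : IsUnit (algebraMap M' B (algebraMap M M' s * c * σ₂ * σ₁)) :=
    IsLocalization.map_units B (⟨algebraMap M M' s, hsS⟩ * c * σ₂ * σ₁ : S)
  obtain ⟨u, hu⟩ := hu
  refine ⟨algebraMap M' B g * ↑u⁻¹, ?_⟩
  rw [key]
  have h2 : (u : B) * f = algebraMap M' B (algebraMap M M' T) * algebraMap M' B g := by
    rw [hu, ← map_mul, ← hg]
    simp only [map_mul]
    rw [← hf]
    ring
  calc f = ↑u⁻¹ * ((u : B) * f) := by rw [← mul_assoc, Units.inv_mul, one_mul]
    _ = _ := by rw [h2]; ring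

/-- unramifiedness in `B`.  `𝔮 := (g).comap`: prime, `≤ z`, `π ∉ 𝔮` (else `g ∣ π/1`, associated), `𝔮 A = (g)`
(`IsLocalization.map_comap`).  `y = y₀/σ`; `y₀²/1 ∈ g B = (𝔮 M') B`, so `c y₀² ∈ 𝔮 M'` for some `c` in the image of `M ∖ z`
(`IsLocalization.mem_map_algebraMap_iff`), `(c y₀)² ∈ 𝔮 M'`; `hunr` gives `s ∉ 𝔮` with `s c y₀ ∈ 𝔮 M'`. -/
theorem unr_loc [IsDomain A] {π : M} (hπ : Prime (algebraMap M A π))
    (hunr : ∀ 𝔮 : Ideal M, 𝔮.IsPrime → 𝔮 ≤ z → π ∉ 𝔮 →
      ∀ y : M', y ^ 2 ∈ 𝔮.map (algebraMap M M') →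
        ∃ s, s ∉ 𝔮 ∧ algebraMap M M' s * y ∈ 𝔮.map (algebraMap M M'))
    (g : A) (hg : Prime g) (hgπ : ¬ Associated g (algebraMap M A π)) (y w : B) (hyw : y ^ 2 = g • w) :
    ∃ (s : A) (y' : B), ¬ g ∣ s ∧ s • y = g • y' := by
  set S := Algebra.algebraMapSubmonoid M' z.primeCompl with hS
  have hgP : (Ideal.span {g}).IsPrime := (Ideal.span_singleton_prime hg.ne_zero).mpr hg
  set 𝔮 : Ideal M := (Ideal.span {g}).comap (algebraMap M A) with h𝔮
  have h𝔮P : 𝔮.IsPrime := Ideal.comap_isPrime _ _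
  have hmem : ∀ m : M, m ∈ 𝔮 ↔ g ∣ algebraMap M A m := by
    intro m
    rw [h𝔮, Ideal.mem_comap, Ideal.mem_span_singleton]
  have h𝔮z : 𝔮 ≤ z := by
    intro m hm
    by_contra hmz
    have hu : IsUnit (algebraMap M A m) := IsLocalization.map_units A (⟨m, hmz⟩ : z.primeCompl)
    exact hg.not_isUnit (isUnit_of_dvd_unit ((hmem m).mp hm) hu)
  have hπ𝔮 : π ∉ 𝔮 := by
    intro h
    exact hgπ (hg.associated_of_dvd hπ ((hmem π).mp h))
  have hmap : 𝔮.map (algebraMap M A) = Ideal.span {g} :=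
    IsLocalization.map_under z.primeCompl A _
  have hmapB : ((𝔮.map (algebraMap M M')).map (algebraMap M' B)) =
      Ideal.span {algebraMap A B g} := by
    rw [Ideal.map_map, ← IsScalarTower.algebraMap_eq, IsScalarTower.algebraMap_eq M A B,
      ← Ideal.map_map, hmap, Ideal.map_span, Set.image_singleton]
  obtain ⟨⟨y₀, σ⟩, hy⟩ := IsLocalization.surj S y
  simp only at hy
  have h1 : algebraMap M' B (y₀ ^ 2) ∈ (𝔮.map (algebraMap M M')).map (algebraMap M' B) := by
    rw [hmapB, Ideal.mem_span_singleton, map_pow, ← hy, mul_pow, hyw, Algebra.smul_def]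
    exact ⟨w * algebraMap M' B σ ^ 2, by ring⟩
  obtain ⟨⟨i, c⟩, hic⟩ := (IsLocalization.mem_map_algebraMap_iff S B).mp h1
  simp only at hic
  rw [← map_mul] at hic
  obtain ⟨c', hc'⟩ := (IsLocalization.eq_iff_exists S B).mp hic
  have h2 : ((c' * c : S) * y₀ : M') ^ 2 ∈ 𝔮.map (algebraMap M M') := by
    have : ((c' * c : S) * y₀ : M') ^ 2 = ((c' * c : S) : M') * ((c' : M') * (i : M')) := by
      rw [← hc']
      push_cast
      ring
    rw [this]
    exact Ideal.mul_mem_left _ _ (Ideal.mul_mem_left _ _ i.2)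
  obtain ⟨s, hs, hsy⟩ := hunr 𝔮 h𝔮P h𝔮z hπ𝔮 _ h2
  have h3 : algebraMap M' B (algebraMap M M' s * ((c' * c : S) * y₀ : M')) ∈
      Ideal.span {algebraMap A B g} := by
    rw [← hmapB]
    exact Ideal.mem_map_of_mem _ hsy
  obtain ⟨y'', hy''⟩ := Ideal.mem_span_singleton.mp h3
  obtain ⟨u, hu⟩ := IsLocalization.map_units B (c' * c * σ : S)
  refine ⟨algebraMap M A s, y'' * ↑u⁻¹, fun h => hs ((hmem s).mpr h), ?_⟩
  rw [Algebra.smul_def, Algebra.smul_def, ← IsScalarTower.algebraMap_apply M A B,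
      IsScalarTower.algebraMap_apply M M' B]
  have h4 : (u : B) * (algebraMap M' B (algebraMap M M' s) * y) = algebraMap A B g * y'' := by
    rw [← hy'', hu]
    simp only [Submonoid.coe_mul, map_mul]
    rw [← hy]
    ring
  calc algebraMap M' B (algebraMap M M' s) * y
      = ↑u⁻¹ * ((u : B) * (algebraMap M' B (algebraMap M M' s) * y)) := by
        rw [← mul_assoc, Units.inv_mul, one_mul]
    _ = _ := by rw [h4]; ring

include A in
/-- `𝔑 ↦ 𝔑.comap` is injective (`IsLocalization.map_comap`) from the maximal ideals of `B` to the (finite: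
`Algebra.QuasiFinite.finite_primesOver`) set of the maximal ideals of `M'` over `z`. -/
theorem card_maximalSpectrum_le [z.IsMaximal] [Module.Finite M M'] :
    Nat.card (MaximalSpectrum B) ≤
      Set.ncard {𝔫 : Ideal M' | 𝔫.IsMaximal ∧ 𝔫.comap (algebraMap M M') = z} := by
  have hlocA : IsLocalRing A := IsLocalization.AtPrime.isLocalRing A z
  have hfinAB : Module.Finite A B := Module.Finite.of_isLocalization M M' z.primeCompl
  have hintAB : Algebra.IsIntegral A B := inferInstance
  have hfin : {𝔫 : Ideal M' | 𝔫.IsMaximal ∧ 𝔫.comap (algebraMap M M') = z}.Finite := by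
    refine (Algebra.QuasiFinite.finite_primesOver (S := M') z).subset ?_
    rintro 𝔫 ⟨h1, h2⟩
    exact ⟨h1.isPrime, ⟨h2.symm⟩⟩
  have hkey : ∀ 𝔑 : MaximalSpectrum B, 𝔑.asIdeal.comap (algebraMap M' B) ∈
      {𝔫 : Ideal M' | 𝔫.IsMaximal ∧ 𝔫.comap (algebraMap M M') = z} := by
    intro 𝔑
    have hmax : 𝔑.asIdeal.IsMaximal := 𝔑.isMaximal
    have h1 : 𝔑.asIdeal.LiesOver (maximalIdeal A) :=
      (IsLocalization.AtPrime.mem_primesOver_of_isPrime (Rₚ := A) (Sₚ := B)
        (Q := 𝔑.asIdeal)).2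
    have h2 : (𝔑.asIdeal.comap (algebraMap M' B)).LiesOver z :=
      IsLocalization.AtPrime.liesOver_comap_of_liesOver z A 𝔑.asIdeal
    have h3 : (𝔑.asIdeal.comap (algebraMap M' B)).comap (algebraMap M M') = z := h2.over.symm
    have hprime : (𝔑.asIdeal.comap (algebraMap M' B)).IsPrime := Ideal.comap_isPrime _ _
    refine ⟨?_, h3⟩
    apply Ideal.isMaximal_of_isIntegral_of_isMaximal_comap (R := M)
    rw [h3]
    infer_instance
  have : Finite {𝔫 : Ideal M' | 𝔫.IsMaximal ∧ 𝔫.comap (algebraMap M M') = z} := hfin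
  rw [← Nat.card_coe_set_eq]
  refine Nat.card_le_card_of_injective (fun 𝔑 => ⟨_, hkey 𝔑⟩) ?_
  intro 𝔑 𝔑' h
  have h' : 𝔑.asIdeal.comap (algebraMap M' B) = 𝔑'.asIdeal.comap (algebraMap M' B) :=
    congrArg Subtype.val h
  have hmc : ∀ I : Ideal B, (I.comap (algebraMap M' B)).map (algebraMap M' B) = I := fun I =>
    IsLocalization.map_under (Algebra.algebraMapSubmonoid M' z.primeCompl) B I
  apply MaximalSpectrum.ext
  rw [← hmc 𝔑.asIdeal, h', hmc 𝔑'.asIdeal]

omit [Algebra A B] [IsScalarTower M A B] [Algebra M B] [IsScalarTower M M' B] in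
/-- `𝔫 B` is maximal. -/
theorem map_isMaximal_of_over (𝔫 : Ideal M') (h𝔫 : 𝔫.IsMaximal)
    (hover : 𝔫.comap (algebraMap M M') = z) : (𝔫.map (algebraMap M' B)).IsMaximal := by
  have hdisj : Disjoint (Algebra.algebraMapSubmonoid M' z.primeCompl : Set M') (𝔫 : Set M') := by
    rw [Set.disjoint_left]
    rintro _ ⟨s, hs, rfl⟩ hmem
    apply hs
    rw [← hover]
    exact hmem
  have hcomap : (𝔫.map (algebraMap M' B)).comap (algebraMap M' B) = 𝔫 :=
    IsLocalization.under_map_of_isPrime_disjoint _ B h𝔫.isPrime hdisj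
  have hmc : ∀ I : Ideal B, (I.comap (algebraMap M' B)).map (algebraMap M' B) = I := fun I =>
    IsLocalization.map_under (Algebra.algebraMapSubmonoid M' z.primeCompl) B I
  have hprime : (𝔫.map (algebraMap M' B)).IsPrime :=
    IsLocalization.isPrime_of_isPrime_disjoint _ B 𝔫 h𝔫.isPrime hdisj
  rw [Ideal.isMaximal_def]
  refine ⟨hprime.ne_top, fun I hI => ?_⟩
  by_contra hItop
  have h1 : 𝔫 ≤ I.comap (algebraMap M' B) := by
    rw [← hcomap]
    exact Ideal.comap_mono hI.le
  have h2 : I.comap (algebraMap M' B) ≠ ⊤ := by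
    intro h
    apply hItop
    rw [← hmc I, h, Ideal.map_top]
  have h3 : 𝔫 = I.comap (algebraMap M' B) := h𝔫.eq_of_le h2 h1
  apply hI.ne
  rw [← hmc I, ← h3]

omit [Algebra A B] [IsScalarTower M A B] [Algebra M B] [IsScalarTower M M' B] in
/-- descent of `Reg2At` from `B` to `M'`.  `θ = θ'/σ`; clear denominators. -/
theorem reg2At_descent (𝔫 : Ideal M') (h𝔫 : 𝔫.IsMaximal) (hover : 𝔫.comap (algebraMap M M') = z)
    (t : M') (θ : B) (h : Reg2At (𝔫.map (algebraMap M' B)) (algebraMap M' B t) θ) :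
    ∃ θ' : M', Reg2At 𝔫 t θ' := by
  set S := Algebra.algebraMapSubmonoid M' z.primeCompl with hS
  have hP : 𝔫.IsPrime := h𝔫.isPrime
  have hSn : ∀ c : S, (c : M') ∉ 𝔫 := by
    rintro ⟨c, m, hm, rfl⟩ hc
    apply hm
    rw [← hover]
    exact hc
  have hdisj : Disjoint (S : Set M') (𝔫 : Set M') := by
    rw [Set.disjoint_left]
    intro c hc hcn
    exact hSn ⟨c, hc⟩ hcn
  have hcm : (𝔫.map (algebraMap M' B)).comap (algebraMap M' B) = 𝔫 :=
    IsLocalization.under_map_of_isPrime_disjoint S B hP hdisj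
  have hiff : ∀ m : M', algebraMap M' B m ∈ 𝔫.map (algebraMap M' B) ↔ m ∈ 𝔫 := by
    intro m
    rw [← Ideal.mem_comap, hcm]
  obtain ⟨⟨θ', σ⟩, hθ⟩ := IsLocalization.surj S θ
  simp only at hθ
  refine ⟨θ', (hiff t).mp h.mem_a, ?_, ?_, ?_⟩
  · rw [← hiff, ← hθ]
    exact Ideal.mul_mem_right _ _ h.mem_b
  · intro f hf
    obtain ⟨s, u, v, hs, hsf⟩ := h.gen _ ((hiff f).mpr hf)
    obtain ⟨⟨s₀, σ₁⟩, hs₀⟩ := IsLocalization.surj S s
    obtain ⟨⟨u₀, σ₂⟩, hu₀⟩ := IsLocalization.surj S u
    obtain ⟨⟨v₀, σ₃⟩, hv₀⟩ := IsLocalization.surj S v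
    simp only at hs₀ hu₀ hv₀
    have h1 : algebraMap M' B (s₀ * σ * σ₂ * σ₃ * f) =
        algebraMap M' B (u₀ * σ * σ₁ * σ₃ * t + v₀ * σ₁ * σ₂ * θ') := by
      simp only [map_mul, map_add]
      rw [← hs₀, ← hu₀, ← hv₀, ← hθ]
      linear_combination (algebraMap M' B σ * algebraMap M' B σ₁ * algebraMap M' B σ₂ *
        algebraMap M' B σ₃) * hsf
    obtain ⟨c, hc⟩ := (IsLocalization.eq_iff_exists S B).mp h1
    refine ⟨c * (s₀ * σ * σ₂ * σ₃), c * (u₀ * σ * σ₁ * σ₃), c * (v₀ * σ₁ * σ₂), ?_, by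
      linear_combination hc⟩
    have hs₀n : s₀ ∉ 𝔫 := by
      intro hs₀n
      apply hs
      obtain ⟨w, hw⟩ := IsLocalization.map_units B σ₁
      have : s = algebraMap M' B s₀ * ↑w⁻¹ := by
        rw [← hs₀, ← hw, mul_assoc, Units.mul_inv, mul_one]
      rw [this]
      exact Ideal.mul_mem_right _ _ ((hiff s₀).mpr hs₀n)
    intro hmem
    rcases hP.mem_or_mem hmem with h' | h'
    · exact hSn c h'
    rcases hP.mem_or_mem h' with h' | h'
    · rcases hP.mem_or_mem h' with h' | h'
      · rcases hP.mem_or_mem h' with h' | h'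
        · exact hs₀n h'
        · exact hSn σ h'
      · exact hSn σ₂ h'
    · exact hSn σ₃ h'
  · intro k s hs hd
    apply h.nonnil k (algebraMap M' B (s * σ ^ k))
    · rw [hiff]
      intro hmem
      rcases hP.mem_or_mem hmem with h' | h'
      · exact hs h'
      · exact hSn σ (hP.mem_of_pow_mem k h')
    · have := map_dvd (algebraMap M' B) hd
      rw [map_mul, map_pow, ← hθ, mul_pow] at this
      rw [map_mul, map_pow]
      convert this using 1
      ring

end Ext

/-- the discriminant over the fraction fields (`Algebra.trace_localization A (nonZeroDivisors A)`, `RingHom.map_det`). -/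
theorem discr_transfer {A B K K' : Type*} [CommRing A] [IsDomain A] [CommRing B] [IsDomain B]
    [Algebra A B] [Module.Finite A B] [Module.Free A B] [FaithfulSMul A B] [Field K] [Field K']
    [Algebra A K] [IsFractionRing A K] [Algebra B K'] [IsFractionRing B K'] [Algebra K K']
    [Algebra A K'] [IsScalarTower A K K'] [IsScalarTower A B K'] {ι : Type*} [Fintype ι]
    [DecidableEq ι] (v : ι → B) :
    Algebra.discr K (fun i => algebraMap B K' (v i)) = algebraMap A K (Algebra.discr A v) := by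
  have : Algebra.IsAlgebraic A B := inferInstance
  have : IsLocalization (Algebra.algebraMapSubmonoid B (nonZeroDivisors A)) K' := inferInstance
  rw [Algebra.discr_def, Algebra.discr_def, RingHom.map_det]
  congr 1
  ext i j
  rw [Algebra.traceMatrix_apply, Algebra.traceForm_apply, RingHom.mapMatrix_apply, Matrix.map_apply,
    Algebra.traceMatrix_apply, Algebra.traceForm_apply, ← map_mul,
    Algebra.trace_localization A (nonZeroDivisors A)]

/-- **RegStep**, with abstract localisations and fraction fields. -/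
theorem regStep_abs {M M' A B K K' : Type*} [CommRing M] [IsDomain M] [IsNoetherianRing M]
    [CommRing M'] [IsDomain M'] [Algebra M M'] [Module.Finite M M'] [FaithfulSMul M M']
    (z : Ideal M) [hz : z.IsMaximal]
    [CommRing A] [Algebra M A] [IsLocalization.AtPrime A z]
    [CommRing B] [Algebra M' B] [IsLocalization (Algebra.algebraMapSubmonoid M' z.primeCompl) B]
    [Algebra A B] [Algebra M B] [IsScalarTower M A B] [IsScalarTower M M' B]
    [Field K] [Field K'] [Algebra A K] [IsFractionRing A K] [Algebra B K'] [IsFractionRing B K']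
    [Algebra K K'] [Algebra A K'] [IsScalarTower A K K'] [IsScalarTower A B K']
    (hk : @IsAlgClosed (M ⧸ z) (Ideal.Quotient.field z))
    (π T : M) (hreg : Reg2At z π T)
    (hS2 : ∀ f h : M', algebraMap M M' π * f = algebraMap M M' T * h →
      ∃ s, s ∉ z ∧ algebraMap M M' T ∣ algebraMap M M' s * f)
    (n a : ℕ) (hn : Module.finrank K K' = n)
    (hchar : ∀ k : ℕ, k ≠ 0 → ∃ j, (k : M) ∣ π ^ j)
    (hunr : ∀ 𝔮 : Ideal M, 𝔮.IsPrime → 𝔮 ≤ z → π ∉ 𝔮 →
      ∀ y : M', y ^ 2 ∈ 𝔮.map (algebraMap M M') →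
        ∃ s, s ∉ 𝔮 ∧ algebraMap M M' s * y ∈ 𝔮.map (algebraMap M M'))
    (θ : M') (δ : M) (hδ : ∀ s, s ∉ z → ¬ π ∣ s * δ)
    (hdisc : Algebra.discr K (fun i : Fin n => algebraMap B K' (algebraMap M' B θ ^ (i : ℕ))) =
      algebraMap A K (algebraMap M A (π ^ a * δ)))
    (hcount : a + Set.ncard {𝔫 : Ideal M' | 𝔫.IsMaximal ∧ 𝔫.comap (algebraMap M M') = z} ≤ n)
    (𝔫 : Ideal M') (h𝔫 : 𝔫.IsMaximal) (hover : 𝔫.comap (algebraMap M M') = z) :
    ∃ θ' : M', Reg2At 𝔫 (algebraMap M M' T) θ' := by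
  classical
  -- `π ≠ 0`
  have hπ0 : π ≠ 0 := by
    rintro rfl
    obtain ⟨s, hs, hd⟩ := hS2 1 0 (by simp)
    apply hs
    rw [← hover, Ideal.mem_comap]
    have hT : algebraMap M M' T ∈ 𝔫 := by
      rw [← Ideal.mem_comap, hover]; exact hreg.mem_b
    rw [mul_one] at hd
    exact Ideal.mem_of_dvd _ hd hT
  -- instances
  have hle : z.primeCompl ≤ nonZeroDivisors M := z.primeCompl_le_nonZeroDivisors
  have hle' : Algebra.algebraMapSubmonoid M' z.primeCompl ≤ nonZeroDivisors M' :=
    algebraMapSubmonoid_le_nonZeroDivisors_of_faithfulSMul _ hle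
  have : IsDomain A := IsLocalization.isDomain_of_le_nonZeroDivisors A hle
  have : IsDomain B := IsLocalization.isDomain_of_le_nonZeroDivisors B hle'
  have : IsLocalRing A := IsLocalization.AtPrime.isLocalRing A z
  have : IsNoetherianRing A := IsLocalization.isNoetherianRing z.primeCompl A inferInstance
  have : Module.Finite A B := Module.Finite.of_isLocalization M M' z.primeCompl
  have : IsAlgClosed (ResidueField A) := isAlgClosed_residueField_loc z A hk
  have hinjA : Function.Injective (algebraMap M A) := IsLocalization.injective A hle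
  have hinjAB : Function.Injective (algebraMap A B) := by
    have h1 : Function.Injective (algebraMap A K') := by
      rw [IsScalarTower.algebraMap_eq A K K']
      exact (algebraMap K K').injective.comp (IsFractionRing.injective A K)
    rw [IsScalarTower.algebraMap_eq A B K'] at h1
    exact Function.Injective.of_comp h1
  have : FaithfulSMul A B := (faithfulSMul_iff_algebraMap_injective A B).mpr hinjAB
  have : Module.IsTorsionFree A B := inferInstance
  -- the parameters
  have hm := maximalIdeal_eq_of_reg2At z A hreg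
  have hπA0 : algebraMap M A π ≠ 0 := (map_ne_zero_iff _ hinjA).mpr hπ0
  have hnil := not_dvd_pow_of_reg2At z A hreg
  have hπA : Prime (algebraMap M A π) := prime_of_nonnil hm hπA0 hnil
  have : Module.Free A B := free_of_S2 hm hπA0 hnil (S2_loc z A B hS2)
  have hnAB : Module.finrank A B = n := by rw [← hn]; exact (IsFractionRing.finrank_eq A K B K').symm
  have hdiscA : Algebra.discr A (fun i : Fin n => algebraMap M' B θ ^ (i : ℕ)) =
      algebraMap M A π ^ a * algebraMap M A δ := by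
    apply IsFractionRing.injective A K
    rw [← discr_transfer (K := K) (K' := K'), hdisc, map_mul, map_pow]
  have h𝔑 := map_isMaximal_of_over z B 𝔫 h𝔫 hover
  obtain ⟨θ₁, hθ₁⟩ := local_main hm hπA0 hnil
    (fun k hk => by
      obtain ⟨j, hj⟩ := hchar k hk
      refine ⟨j, ?_⟩
      have := map_dvd (algebraMap M A) hj
      rwa [map_natCast, map_pow] at this)
    (unr_loc z A B hπA hunr) n a hnAB _ _ (not_dvd_algebraMap z A hδ) hdiscA
    ((Nat.add_le_add_left (card_maximalSpectrum_le z A B) a).trans hcount) _ h𝔑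
  rw [← IsScalarTower.algebraMap_apply, IsScalarTower.algebraMap_apply M M' B] at hθ₁
  exact reg2At_descent z B 𝔫 h𝔫 hover _ θ₁ hθ₁

end Fermat.Agent.S36.R.RegStep
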