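import Mathlib

/-!
# S36 / R / RegStep / Red : reduction of a finite free algebra modulo an element of the base     (Mathlib only)

`B` an `A`-algebra with basis `b`, `T : A`.  `Red B T := (A / (T)) ⊗[A] B` is "`B / T B`" as an `A / (T)`-algebra, with the
basis `redBasis T b` and the reduction map `red B T : B →+* Red B T`.
-/

set_option autoImplicit false

namespace Fermat.Agent.S36.R.RegStep

open scoped TensorProduct

variable {A : Type*} (B : Type*) [CommRing A] [CommRing B] [Algebra A B] (T : A)

/-- `B / T B` as an algebra over `A / (T)`. -/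
abbrev Red : Type _ := (A ⧸ Ideal.span {T}) ⊗[A] B

/-- the reduction map `B → B / T B`. -/
noncomputable def red : B →+* Red B T :=
  (Algebra.TensorProduct.includeRight : B →ₐ[A] (A ⧸ Ideal.span {T}) ⊗[A] B).toRingHom

theorem red_apply (x : B) : red B T x = (1 : A ⧸ Ideal.span {T}) ⊗ₜ[A] x := rfl

/-- `TensorProduct.induction_on`; `(mk a) ⊗ x = 1 ⊗ (a • x)`. -/
theorem red_surjective : Function.Surjective (red B T) := by
  intro z
  induction z using TensorProduct.induction_on with
  | zero => exact ⟨0, map_zero _⟩
  | tmul a x =>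
    obtain ⟨a, rfl⟩ := Ideal.Quotient.mk_surjective a
    refine ⟨a • x, ?_⟩
    rw [red_apply, TensorProduct.tmul_smul, TensorProduct.smul_tmul']
    congr 1
    rw [Algebra.smul_def, mul_one]
    rfl
  | add z w hz hw =>
    obtain ⟨x, rfl⟩ := hz
    obtain ⟨y, rfl⟩ := hw
    exact ⟨x + y, map_add _ _ _⟩

theorem red_algebraMap (a : A) :
    red B T (algebraMap A B a) = algebraMap (A ⧸ Ideal.span {T}) (Red B T) (Ideal.Quotient.mk _ a) := by
  rw [red_apply, Algebra.TensorProduct.algebraMap_apply, Algebra.algebraMap_eq_smul_one,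
    TensorProduct.tmul_smul, TensorProduct.smul_tmul']
  congr 1
  rw [Algebra.smul_def, mul_one]
  rfl

variable {B} {ι : Type*} [Fintype ι] [DecidableEq ι] (b : Module.Basis ι A B)

/-- the reduced basis. -/
noncomputable def redBasis : Module.Basis ι (A ⧸ Ideal.span {T}) (Red B T) :=
  Algebra.TensorProduct.basis (A ⧸ Ideal.span {T}) b

theorem redBasis_apply (i : ι) : redBasis T b i = red B T (b i) := by
  rw [redBasis, Algebra.TensorProduct.basis_apply, red_apply]

theorem redBasis_repr (x : B) (i : ι) :
    (redBasis T b).repr (red B T x) i = Ideal.Quotient.mk (Ideal.span {T}) (b.repr x i) := by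
  rw [redBasis, red_apply, Algebra.TensorProduct.basis_repr_tmul, one_smul,
    Finsupp.mapRange_apply]
  rfl

include b in
/-- coordinates: `red x = 0` iff all coordinates of `x` are divisible by `T`. -/
theorem red_eq_zero_iff (x : B) : red B T x = 0 ↔ algebraMap A B T ∣ x := by
  constructor
  · intro h
    have h1 : ∀ i, T ∣ b.repr x i := by
      intro i
      have h2 := redBasis_repr T b x i
      rw [h, map_zero, Finsupp.zero_apply] at h2
      exact Ideal.mem_span_singleton.mp (Ideal.Quotient.eq_zero_iff_mem.mp h2.symm)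
    choose c hc using h1
    refine ⟨∑ i, c i • b i, ?_⟩
    conv_lhs => rw [← b.sum_repr x]
    rw [Finset.mul_sum]
    refine Finset.sum_congr rfl fun i _ => ?_
    rw [hc i, mul_smul, Algebra.smul_def]
  · rintro ⟨z, rfl⟩
    rw [map_mul, red_algebraMap]
    have : Ideal.Quotient.mk (Ideal.span {T}) T = 0 :=
      Ideal.Quotient.eq_zero_iff_mem.mpr (Ideal.mem_span_singleton_self T)
    rw [this, map_zero, zero_mul]

include b in
/-- `Algebra.trace_eq_matrix_trace` for both bases / or `Algebra.trace_baseChange`. -/
theorem trace_red (x : B) :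
    Algebra.trace (A ⧸ Ideal.span {T}) (Red B T) (red B T x) =
      Ideal.Quotient.mk (Ideal.span {T}) (Algebra.trace A B x) := by
  have : Module.Free A B := Module.Free.of_basis b
  have : Module.Finite A B := Module.Finite.of_basis b
  rw [Algebra.trace_apply, Algebra.trace_apply, red_apply, ← Algebra.baseChange_lmul,
    LinearMap.trace_baseChange]
  rfl

theorem discr_redBasis :
    Algebra.discr (A ⧸ Ideal.span {T}) (redBasis T b) =
      Ideal.Quotient.mk (Ideal.span {T}) (Algebra.discr A b) := by
  rw [Algebra.discr_def, Algebra.discr_def, RingHom.map_det]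
  congr 1
  ext i j
  rw [Algebra.traceMatrix_apply, Algebra.traceForm_apply, redBasis_apply, redBasis_apply,
    ← map_mul, trace_red T b, RingHom.mapMatrix_apply, Matrix.map_apply,
    Algebra.traceMatrix_apply, Algebra.traceForm_apply]

end Fermat.Agent.S36.R.RegStep
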