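import Fermat.Agent.S36.R.Defs
import Fermat.Agent.S36.R.DC
import Fermat.Agent.S36.R.RegStep.Red
import Fermat.Agent.S26.Alg.TwoDim
import Fermat.Agent.S36.Alg.FreeIC
import Fermat.Agent.S36.Alg.DiscShape
import Fermat.Agent.S36.Alg.Reg2Gen

/-!
# S36 / R / RegStep / Local : the regularity step over a LOCAL base                         (OWNER: helper67)

`A` a noetherian local domain with `𝔪 = (π, T)`, `π ≠ 0`, no power of `T` in `(π)` (so `A` is regular of dimension two), with
algebraically closed residue field; `B` a finite free `A`-algebra.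

* `prime_of_nonnil`, `Par.*`   : `π`, `T` are prime, `A/(T)` is a DVR with uniformiser `π`, `A` is a UFD;
* `free_of_S2`                 : a f.g. torsion free module on which `(T, π)` is a regular sequence is free;
* `local_core`                 : the discriminant count `DC.exists_generator` for `B/TB` over `A/(T)`, lifted to `B`;
* `local_main`                 : the regularity step.
-/

set_option autoImplicit false

namespace Fermat.Agent.S36.R.RegStep

open IsLocalRing Fermat.Agent.S36.Alg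

section Par

variable {A : Type*} [CommRing A] [IsDomain A] [IsLocalRing A] [IsNoetherianRing A] {π T : A}

/-- `A/(π)` is local noetherian with maximal ideal `(T)`, `T` not nilpotent: a domain
(`Reg2Gen.isLocalRing_quot`, `Reg2Gen.maximalIdeal_quot`, `isDomain_of_principal`). -/
theorem prime_of_nonnil (hm : maximalIdeal A = Ideal.span {π, T}) (hπ0 : π ≠ 0)
    (hnil : ∀ k : ℕ, ¬ π ∣ T ^ k) : Prime π := by
  have hloc := Reg2Gen.isLocalRing_quot hm
  have hd : IsDomain (A ⧸ Ideal.span {π}) := by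
    refine isDomain_of_principal (Reg2Gen.maximalIdeal_quot hm) fun n hn => ?_
    rw [← map_pow, Ideal.Quotient.eq_zero_iff_mem, Ideal.mem_span_singleton] at hn
    exact hnil n hn
  have hp : (Ideal.span {π}).IsPrime := (Ideal.Quotient.isDomain_iff_prime _).mp hd
  exact (Ideal.span_singleton_prime hπ0).mp hp

/-- the package of consequences (all from `Reg2Gen` with `(x, y) = (T, π)`, `𝔭 = (π)`, and `TwoDim.uniqueFactorizationMonoid`). -/
theorem par_package (hm : maximalIdeal A = Ideal.span {π, T}) (hπ0 : π ≠ 0)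
    (hnil : ∀ k : ℕ, ¬ π ∣ T ^ k) :
    Prime T ∧ UniqueFactorizationMonoid A ∧
      ∃ _ : IsDomain (A ⧸ Ideal.span {T}), IsDiscreteValuationRing (A ⧸ Ideal.span {T}) ∧
        Irreducible (Ideal.Quotient.mk (Ideal.span {T}) π) := by
  have hπ : Prime π := prime_of_nonnil hm hπ0 hnil
  have hp : (Ideal.span {π}).IsPrime := (Ideal.span_singleton_prime hπ0).mpr hπ
  have h0 : Ideal.span {π} ≠ ⊥ := by
    rw [Ne, Ideal.span_singleton_eq_bot]
    exact hπ0
  have h1 : Ideal.span {π} ≠ maximalIdeal A := by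
    intro h
    have hT : T ∈ maximalIdeal A := hm ▸ Ideal.subset_span (by simp)
    rw [← h, Ideal.mem_span_singleton] at hT
    exact hnil 1 (by simpa using hT)
  have hm' : maximalIdeal A = Ideal.span {T, π} := by rw [hm, Set.pair_comm]
  have hT : Prime T := Reg2Gen.prime hm' _ h0 h1
  have hdom : IsDomain (A ⧸ Ideal.span {T}) := Reg2Gen.isDomain_quot hm' _ h0 h1
  have hdvr : IsDiscreteValuationRing (A ⧸ Ideal.span {T}) :=
    Reg2Gen.isDiscreteValuationRing_quot hm' _ h0 h1
  refine ⟨hT, ?_, hdom, hdvr, Reg2Gen.irreducible_mk hm' _ h0 h1⟩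
  exact Fermat.Agent.S26.TwoDim.uniqueFactorizationMonoid (Ideal.Quotient.mk (Ideal.span {T}))
    Ideal.Quotient.mk_surjective T Ideal.mk_ker hT

/-- `b ∉ (T)` ⟹ `b = u π ^ k + T c`, `u` a unit. (`exists_unit_mul_pow_of_principal` in `A/(T)`, units lift.) -/
theorem exists_eq_unit_mul_pow_add (hm : maximalIdeal A = Ideal.span {π, T}) (b : A) (hb : ¬ T ∣ b) :
    ∃ (u c : A) (k : ℕ), IsUnit u ∧ b = u * π ^ k + T * c := by
  have hm' : maximalIdeal A = Ideal.span {T, π} := by rw [hm, Set.pair_comm]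
  have hloc := Reg2Gen.isLocalRing_quot hm'
  have hb0 : Ideal.Quotient.mk (Ideal.span {T}) b ≠ 0 := by
    rw [Ne, Ideal.Quotient.eq_zero_iff_mem, Ideal.mem_span_singleton]
    exact hb
  obtain ⟨u', k, hu', hbu⟩ := exists_unit_mul_pow_of_principal (Reg2Gen.maximalIdeal_quot hm') hb0
  obtain ⟨u, rfl⟩ := Ideal.Quotient.mk_surjective u'
  have hlh : IsLocalHom (Ideal.Quotient.mk (Ideal.span {T})) :=
    IsLocalHom.of_surjective _ Ideal.Quotient.mk_surjective
  have hu : IsUnit u := hlh.map_nonunit u hu'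
  rw [← map_pow, ← map_mul, Ideal.Quotient.eq, Ideal.mem_span_singleton] at hbu
  obtain ⟨c, hc⟩ := hbu
  exact ⟨u, c, k, hu, by linear_combination hc⟩

/-- **freeness** (`free_of_reg_aux` with the prime `T`; `hreg` by `exists_eq_unit_mul_pow_add` + induction on `k`). -/
theorem free_of_S2 (hm : maximalIdeal A = Ideal.span {π, T}) (hπ0 : π ≠ 0)
    (hnil : ∀ k : ℕ, ¬ π ∣ T ^ k)
    {N : Type*} [AddCommGroup N] [Module A N] [Module.Finite A N] [Module.IsTorsionFree A N]
    (hS2 : ∀ f h : N, π • f = T • h → ∃ f' : N, f = T • f') : Module.Free A N := by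
  obtain ⟨hT, -, hdom, hdvr, -⟩ := par_package hm hπ0 hnil
  have hpow : ∀ (k : ℕ) (z w : N), π ^ k • z = T • w → ∃ z' : N, z = T • z' := by
    intro k
    induction k with
    | zero =>
      intro z w h
      exact ⟨w, by simpa using h⟩
    | succ k ih =>
      intro z w h
      rw [pow_succ', mul_smul] at h
      obtain ⟨f', hf'⟩ := hS2 _ _ h
      exact ih z f' hf'
  refine free_of_reg_aux hT inferInstance fun b hb z w h => ?_
  obtain ⟨u, c, k, hu, rfl⟩ := exists_eq_unit_mul_pow_add hm b hb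
  obtain ⟨v, hv⟩ := hu.exists_left_inv
  refine hpow k z (v • (w - c • z)) ?_
  have h1 : (u * π ^ k) • z = T • (w - c • z) := by
    rw [smul_sub, ← h, add_smul, mul_smul T c z]
    abel
  calc π ^ k • z = (v * u) • π ^ k • z := by rw [hv, one_smul]
    _ = v • ((u * π ^ k) • z) := by rw [mul_smul, mul_smul]
    _ = T • v • (w - c • z) := by rw [h1, smul_comm]

/-- the residue field of a quotient. (`IsLocalRing.ResidueField.map` of the quotient map is bijective.) -/
theorem isAlgClosed_residueField_quot [IsAlgClosed (ResidueField A)] (I : Ideal A)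
    [IsLocalRing (A ⧸ I)] : IsAlgClosed (ResidueField (A ⧸ I)) := by
  have hloc : IsLocalHom (Ideal.Quotient.mk I) :=
    IsLocalHom.of_surjective _ Ideal.Quotient.mk_surjective
  let f : ResidueField A →+* ResidueField (A ⧸ I) := ResidueField.map (Ideal.Quotient.mk I)
  have hbij : Function.Bijective f := by
    refine ⟨f.injective, fun x => ?_⟩
    obtain ⟨y, rfl⟩ := IsLocalRing.residue_surjective x
    obtain ⟨z, rfl⟩ := Ideal.Quotient.mk_surjective y
    exact ⟨residue A z, rfl⟩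
  exact IsAlgClosed.of_ringEquiv _ _ (RingEquiv.ofBijective f hbij)

end Par

section Basis

variable {A B ι : Type*} [CommRing A] [IsDomain A] [CommRing B] [Algebra A B] [Fintype ι]

/-- coordinates. -/
theorem exists_eq_smul_of_smul_eq_smul (b : Module.Basis ι A B) {g s : A} (hg : Prime g) (hs : ¬ g ∣ s)
    {y y' : B} (h : s • y = g • y') : ∃ y'' : B, y = g • y'' := by
  have h1 : ∀ i, g ∣ b.equivFun y i := by
    intro i
    have h2 := congrFun (congrArg b.equivFun h) i
    rw [map_smul, map_smul, Pi.smul_apply, Pi.smul_apply, smul_eq_mul, smul_eq_mul] at h2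
    exact (hg.dvd_or_dvd ⟨_, h2⟩).resolve_left hs
  choose c hc using h1
  refine ⟨b.equivFun.symm c, b.equivFun.injective ?_⟩
  rw [map_smul, LinearEquiv.apply_symm_apply]
  funext i
  rw [hc i, Pi.smul_apply, smul_eq_mul]

end Basis

section Core

/-- **lifting the discriminant count.**
`𝔐 := 𝔑.map ψ` is maximal with `𝔐.comap ψ = 𝔑` (`ψ` surjective, `ker ψ = (T) ≤ 𝔑`).  `DC.exists_generator` gives `θ̄ = ψ θ`.
`gen`: `f ∈ 𝔑`: `ψ s * ψ f = ψ θ * ψ g`, so `T ∣ s f - θ g`.
`nonnil`: `T ∣ s θ ^ k`, `s ∉ 𝔑`: `ψ s * θ̄ ^ k = 0`; `ϖ ∈ 𝔐` (`DC.algebraMap_mem_of_isMaximal`): `θ̄ ∣ s' ϖ`, `s' ∉ 𝔐`, so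
`ψ s * s' ^ k * ϖ ^ k = 0`, and `ϖ` is a non-zero-divisor (`DC.algebraMap_mul_cancel`): `ψ s * s' ^ k = 0 ∈ 𝔐`. -/
theorem local_core {A B D B' : Type*} [CommRing A] [CommRing B] [Algebra A B]
    [CommRing D] [IsDomain D] [IsDiscreteValuationRing D] [IsAlgClosed (ResidueField D)]
    [CommRing B'] [Algebra D B']
    (ψ : B →+* B') (hψ : Function.Surjective ψ) (T : A)
    (hker : ∀ x, ψ x = 0 ↔ algebraMap A B T ∣ x)
    {ι : Type*} [Fintype ι] [DecidableEq ι] (b' : Module.Basis ι D B') {ϖ : D} (hϖ : Irreducible ϖ)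
    (h : ¬ ϖ ^ (Fintype.card ι - Nat.card (MaximalSpectrum B') + 1) ∣ Algebra.discr D b')
    (𝔑 : Ideal B) (h𝔑 : 𝔑.IsMaximal) (hT : algebraMap A B T ∈ 𝔑) :
    ∃ θ : B, Reg2At 𝔑 (algebraMap A B T) θ := by
  have hmem : ∀ x : B, x ∈ 𝔑 ↔ ψ x ∈ 𝔑.map ψ := by
    intro x
    refine ⟨fun hx => Ideal.mem_map_of_mem _ hx, fun hx => ?_⟩
    obtain ⟨y, hy, hyx⟩ := (Ideal.mem_map_iff_of_surjective ψ hψ).1 hx
    have h1 : ψ (x - y) = 0 := by rw [map_sub, hyx, sub_self]
    have h2 : x - y ∈ 𝔑 := Ideal.mem_of_dvd 𝔑 ((hker _).1 h1) hT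
    have h3 := 𝔑.add_mem h2 hy
    rwa [sub_add_cancel] at h3
  have h𝔐 : (𝔑.map ψ).IsMaximal := by
    rcases Ideal.map_eq_top_or_isMaximal_of_surjective ψ hψ h𝔑 with h1 | h1
    · exfalso
      apply h𝔑.ne_top
      rw [Ideal.eq_top_iff_one, hmem, h1]
      exact Submodule.mem_top
    · exact h1
  obtain ⟨θ', hθ', hgen⟩ := DC.exists_generator b' hϖ h _ h𝔐
  obtain ⟨θ, rfl⟩ := hψ θ'
  refine ⟨θ, ⟨hT, (hmem θ).2 hθ', ?_, ?_⟩⟩
  · intro f hf
    obtain ⟨s', hs', g', hg'⟩ := hgen _ ((hmem f).1 hf)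
    obtain ⟨s, rfl⟩ := hψ s'
    obtain ⟨g, rfl⟩ := hψ g'
    have h1 : ψ (s * f - θ * g) = 0 := by rw [map_sub, map_mul, map_mul, hg', sub_self]
    obtain ⟨c, hc⟩ := (hker _).1 h1
    refine ⟨s, c, g, fun hs => hs' ((hmem s).1 hs), ?_⟩
    linear_combination hc
  · intro k s hs hdvd
    have h1 : ψ s * ψ θ ^ k = 0 := by
      rw [← map_pow, ← map_mul]
      exact (hker _).2 hdvd
    obtain ⟨s', hs', c, hc⟩ := hgen _ (DC.algebraMap_mem_of_isMaximal b' hϖ _ h𝔐)
    have h2 : algebraMap D B' ϖ ^ k * (ψ s * s' ^ k) = 0 := by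
      have h3 : algebraMap D B' ϖ ^ k * (ψ s * s' ^ k) = ψ s * (s' * algebraMap D B' ϖ) ^ k := by
        rw [mul_pow]; ring
      rw [h3, hc, mul_pow, ← mul_assoc, h1, zero_mul]
    have h4 : ∀ (j : ℕ) (x : B'), algebraMap D B' ϖ ^ j * x = 0 → x = 0 := by
      intro j
      induction j with
      | zero => intro x hx; rwa [pow_zero, one_mul] at hx
      | succ j ih =>
        intro x hx
        apply ih
        apply DC.algebraMap_mul_cancel b' hϖ
        rw [mul_zero, ← mul_assoc, ← pow_succ']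
        exact hx
    have h5 := h4 k _ h2
    have h6 : ψ s * s' ^ k ∈ 𝔑.map ψ := by rw [h5]; exact zero_mem _
    rcases h𝔐.isPrime.mem_or_mem h6 with h7 | h7
    · exact hs ((hmem s).2 h7)
    · exact hs' (h𝔐.isPrime.mem_of_pow_mem _ h7)

/-- maximal ideals of a finite algebra over a local ring lie over the maximal ideal. -/
theorem RS_comap_eq_maximalIdeal {A B : Type*} [CommRing A] [IsLocalRing A] [CommRing B]
    [Algebra A B] [Module.Finite A B] (𝔑 : Ideal B) (h𝔑 : 𝔑.IsMaximal) :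
    𝔑.comap (algebraMap A B) = maximalIdeal A := by
  have : Algebra.IsIntegral A B := Algebra.IsIntegral.of_finite A B
  exact IsLocalRing.eq_maximalIdeal (Ideal.isMaximal_comap_of_isIntegral_of_isMaximal 𝔑)

/-- `comap` along a surjection is injective on maximal ideals; the target is finite (`Algebra.QuasiFinite.finite_primesOver`
as in `DC.finite_maximalSpectrum'`). -/
theorem card_maximalSpectrum_le_of_surjective {A B B' : Type*} [CommRing A] [IsLocalRing A] [CommRing B]
    [Algebra A B] [Module.Finite A B] [CommRing B'] (ψ : B →+* B') (hψ : Function.Surjective ψ) :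
    Nat.card (MaximalSpectrum B') ≤ Nat.card (MaximalSpectrum B) := by
  have hfin : Finite (MaximalSpectrum B) := by
    have hfin := Algebra.QuasiFinite.finite_primesOver (R := A) (S := B) (maximalIdeal A)
    have : Finite ((maximalIdeal A).primesOver B) := hfin
    refine Finite.of_injective
      (fun 𝔐 : MaximalSpectrum B => (⟨𝔐.asIdeal, 𝔐.isMaximal.isPrime,
        ⟨(RS_comap_eq_maximalIdeal 𝔐.asIdeal 𝔐.isMaximal).symm⟩⟩ :
          (maximalIdeal A).primesOver B)) ?_
    intro x y hxy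
    have := congrArg Subtype.val hxy
    exact MaximalSpectrum.ext this
  refine Nat.card_le_card_of_injective
    (fun 𝔐 : MaximalSpectrum B' => (⟨𝔐.asIdeal.comap ψ,
      haveI := 𝔐.isMaximal; Ideal.comap_isMaximal_of_surjective ψ hψ⟩ : MaximalSpectrum B)) ?_
  intro x y hxy
  have h1 : x.asIdeal.comap ψ = y.asIdeal.comap ψ := congrArg MaximalSpectrum.asIdeal hxy
  exact MaximalSpectrum.ext (Ideal.comap_injective_of_surjective ψ hψ h1)

/-- a maximal ideal of a finite algebra over a local ring contains the maximal ideal of the base. -/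
theorem algebraMap_mem_of_isMaximal {A B : Type*} [CommRing A] [IsLocalRing A] [CommRing B]
    [Algebra A B] [Module.Finite A B] (𝔑 : Ideal B) (h𝔑 : 𝔑.IsMaximal) {t : A} (ht : t ∈ maximalIdeal A) :
    algebraMap A B t ∈ 𝔑 := by
  rw [← RS_comap_eq_maximalIdeal 𝔑 h𝔑] at ht
  exact ht

end Core

/-- **the regularity step, local form.** -/
theorem local_main {A B : Type*} [CommRing A] [IsDomain A] [IsLocalRing A] [IsNoetherianRing A]
    [IsAlgClosed (ResidueField A)]
    [CommRing B] [Algebra A B] [Module.Finite A B] [Module.Free A B]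
    {π T : A} (hm : maximalIdeal A = Ideal.span {π, T}) (hπ0 : π ≠ 0) (hnil : ∀ k : ℕ, ¬ π ∣ T ^ k)
    (hchar : ∀ k : ℕ, k ≠ 0 → ∃ j, (k : A) ∣ π ^ j)
    (hunr : ∀ g : A, Prime g → ¬ Associated g π → ∀ y w : B, y ^ 2 = g • w →
      ∃ (s : A) (y' : B), ¬ g ∣ s ∧ s • y = g • y')
    (n a : ℕ) (hn : Module.finrank A B = n) (v : Fin n → B) (δ : A) (hδ : ¬ π ∣ δ)
    (hdisc : Algebra.discr A v = π ^ a * δ)
    (hcount : a + Nat.card (MaximalSpectrum B) ≤ n)
    (𝔑 : Ideal B) (h𝔑 : 𝔑.IsMaximal) : ∃ θ : B, Reg2At 𝔑 (algebraMap A B T) θ := by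
  classical
  have hπ : Prime π := prime_of_nonnil hm hπ0 hnil
  obtain ⟨hT, hufd, hdom, hdvr, hϖ⟩ := par_package hm hπ0 hnil
  have hcl : IsAlgClosed (ResidueField (A ⧸ Ideal.span {T})) := isAlgClosed_residueField_quot _
  let b : Module.Basis (Fin n) A B := Module.finBasisOfFinrankEq A B hn
  have hδ0 : δ ≠ 0 := fun h => hδ (h ▸ dvd_zero π)
  have hb0 : Algebra.discr A b ≠ 0 := by
    intro h0
    have h1 := discr_dvd_discr b v
    rw [h0, hdisc, zero_dvd_iff] at h1
    exact mul_ne_zero (pow_ne_zero a hπ0) hδ0 h1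
  obtain ⟨u, a', hu, hdb⟩ := discr_eq_unit_mul_pow b hπ hchar hb0 (fun g hg hgπ y w hyw => by
    obtain ⟨s, y', hs, hsy⟩ := hunr g hg hgπ y w hyw
    exact exists_eq_smul_of_smul_eq_smul b hg hs hsy)
  have ha' : a' ≤ a := le_of_not_pow_dvd_discr b v hdb (by
    rw [hdisc, pow_succ]
    intro hd
    exact hδ ((mul_dvd_mul_iff_left (pow_ne_zero a hπ0)).mp hd))
  have hd : Algebra.discr (A ⧸ Ideal.span {T}) (redBasis T b) =
      Ideal.Quotient.mk (Ideal.span {T}) u * Ideal.Quotient.mk (Ideal.span {T}) π ^ a' := by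
    rw [discr_redBasis, hdb, map_mul, map_pow]
  have hcard : Nat.card (MaximalSpectrum (Red B T)) ≤ Nat.card (MaximalSpectrum B) :=
    card_maximalSpectrum_le_of_surjective (A := A) (red B T) (red_surjective B T)
  have hnd : ¬ (Ideal.Quotient.mk (Ideal.span {T}) π) ^
      (Fintype.card (Fin n) - Nat.card (MaximalSpectrum (Red B T)) + 1) ∣
        Algebra.discr (A ⧸ Ideal.span {T}) (redBasis T b) := by
    rw [hd, Fintype.card_fin]
    intro hdvd
    have h1 : Ideal.Quotient.mk (Ideal.span {T}) π ^ (a' + 1) ∣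
        Ideal.Quotient.mk (Ideal.span {T}) u * Ideal.Quotient.mk (Ideal.span {T}) π ^ a' :=
      (pow_dvd_pow _ (by omega)).trans hdvd
    rw [(hu.map (Ideal.Quotient.mk (Ideal.span {T}))).dvd_mul_left, pow_succ] at h1
    have h2 : Ideal.Quotient.mk (Ideal.span {T}) π ^ a' * Ideal.Quotient.mk (Ideal.span {T}) π ∣
        Ideal.Quotient.mk (Ideal.span {T}) π ^ a' * 1 := by rwa [mul_one]
    exact hϖ.not_isUnit (isUnit_of_dvd_one ((mul_dvd_mul_iff_left (pow_ne_zero a' hϖ.ne_zero)).mp h2))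
  have hTm : T ∈ maximalIdeal A := hm ▸ Ideal.subset_span (by simp)
  exact local_core (red B T) (red_surjective B T) T (red_eq_zero_iff T b) (redBasis T b) hϖ hnd 𝔑 h𝔑
    (algebraMap_mem_of_isMaximal 𝔑 h𝔑 hTm)

end Fermat.Agent.S36.R.RegStep
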